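/-
S55 / TOP-W55 piece (W3) (helper65): the GENERIC half of hypothesis (E) of `EW55.FormalPT`.

* `exactE_of_finrank`: if the diagonal copy of `Z` is killed by `S α`, `dim Z = 1` and
  `dim ker (S α) ≤ 1`, then `ExactE α`.
* `coindEquiv`: `coind_{D_v}^Γ Z ≃ Hom_{D_v}(k[Γ], Z)` and the dimension count
  `dim = [Γ : D_v] · dim Z`.
* the linear algebra behind "`dim ker (loc^*) ≤ 1`": `finrank_ker_dualMap_comp_le_one` and its
  product form `finrank_ker_sum_dualMap_le_one`.
-/
import Fermat.Agent.S55.EW55.FormalPT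

set_option autoImplicit false
set_option linter.unusedSimpArgs false
set_option linter.unnecessarySimpa false
set_option linter.unusedSectionVars false

open CategoryTheory Module

namespace Fermat.Agent.S55.FormalTop65

open Fermat.Agent.S55.EW55 Fermat.Agent.S55.EW55.FormalPT

/-! ### Linear algebra: the kernel of a dualised localisation map -/

section LinAlg

universe u₁ u₂ u₃

variable {k : Type*} [Field k]

/-- The kernel of `f ∘ E` for a bijective `E` is equivalent to the kernel of `f`. -/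
noncomputable def kerCompEquiv {X Y W : Type*} [AddCommGroup X] [Module k X] [AddCommGroup Y]
    [Module k Y] [AddCommGroup W] [Module k W] (f : Y →ₗ[k] W) (E : X →ₗ[k] Y)
    (hE : Function.Bijective E) : LinearMap.ker (f ∘ₗ E) ≃ₗ[k] LinearMap.ker f :=
  LinearEquiv.ofBijective
    (E.restrict (p := LinearMap.ker (f ∘ₗ E)) (q := LinearMap.ker f) (fun x hx => hx))
    ⟨fun x y h => Subtype.ext (hE.1 (congrArg Subtype.val h)), fun y => by
      obtain ⟨x, hx⟩ := hE.2 y.1
      refine ⟨⟨x, ?_⟩, Subtype.ext hx⟩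
      rw [LinearMap.mem_ker, LinearMap.comp_apply, hx]
      exact y.2⟩

theorem finite_ker_dualMap_comp {H P X : Type*} [AddCommGroup H] [Module k H]
    [AddCommGroup P] [Module k P] [AddCommGroup X] [Module k X] [Module.Finite k P]
    (L : H →ₗ[k] P) (E : X →ₗ[k] Module.Dual k P) (hE : Function.Bijective E) :
    Module.Finite k (LinearMap.ker (L.dualMap ∘ₗ E)) :=
  Module.Finite.equiv (kerCompEquiv L.dualMap E hE).symm

/-- If `dim P ≤ dim (range L) + 1` then the kernel of the dual map `P^* → H^*` (precomposed with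
an identification `E : X ≃ P^*`) has dimension `≤ 1`. -/
theorem finrank_ker_dualMap_comp_le_one {H P X : Type*} [AddCommGroup H] [Module k H]
    [AddCommGroup P] [Module k P] [AddCommGroup X] [Module k X] [Module.Finite k P]
    (L : H →ₗ[k] P) (E : X →ₗ[k] Module.Dual k P) (hE : Function.Bijective E)
    (h : finrank k P ≤ finrank k (LinearMap.range L) + 1) :
    finrank k (LinearMap.ker (L.dualMap ∘ₗ E)) ≤ 1 := by
  rw [(kerCompEquiv L.dualMap E hE).finrank_eq, LinearMap.ker_dualMap_eq_dualAnnihilator_range]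
  have := Subspace.finrank_add_finrank_dualAnnihilator_eq (LinearMap.range L)
  omega

/-- The pairing `∏ X q → (∏ P q)^*` assembled from pairings `X q → (P q)^*`. -/
noncomputable def piDual {ι : Type*} [Fintype ι] {P X : ι → Type*}
    [∀ q, AddCommGroup (P q)] [∀ q, Module k (P q)] [∀ q, AddCommGroup (X q)]
    [∀ q, Module k (X q)] (E : ∀ q, X q →ₗ[k] Module.Dual k (P q)) :
    (∀ q, X q) →ₗ[k] Module.Dual k (∀ q, P q) :=
  ∑ q, (LinearMap.proj q : (∀ q, P q) →ₗ[k] P q).dualMap ∘ₗ E q ∘ₗ LinearMap.proj q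

lemma piDual_apply {ι : Type*} [Fintype ι] {P X : ι → Type*}
    [∀ q, AddCommGroup (P q)] [∀ q, Module k (P q)] [∀ q, AddCommGroup (X q)]
    [∀ q, Module k (X q)] (E : ∀ q, X q →ₗ[k] Module.Dual k (P q)) (x : ∀ q, X q)
    (y : ∀ q, P q) : piDual E x y = ∑ q, E q (x q) (y q) := by
  simp [piDual, LinearMap.sum_apply]

lemma piDual_bijective {ι : Type*} [Fintype ι] {P X : ι → Type*}
    [∀ q, AddCommGroup (P q)] [∀ q, Module k (P q)] [∀ q, AddCommGroup (X q)]
    [∀ q, Module k (X q)] (E : ∀ q, X q →ₗ[k] Module.Dual k (P q))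
    (hE : ∀ q, Function.Bijective (E q)) : Function.Bijective (piDual E) := by
  classical
  constructor
  · rw [injective_iff_map_eq_zero]
    intro x hx
    funext q
    apply (hE q).1
    rw [Pi.zero_apply, map_zero]
    refine LinearMap.ext fun y => ?_
    have := LinearMap.congr_fun hx (Pi.single q y)
    rw [piDual_apply, Finset.sum_eq_single q] at this
    · simpa using this
    · intro b _ hb
      rw [Pi.single_eq_of_ne hb, map_zero]
    · intro hq; exact absurd (Finset.mem_univ q) hq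
  · intro φ
    choose g hg using fun q => (hE q).2 (φ ∘ₗ LinearMap.single k P q)
    refine ⟨g, ?_⟩
    refine LinearMap.ext fun y => ?_
    rw [piDual_apply]
    simp only [hg, LinearMap.comp_apply]
    rw [← map_sum]
    congr 1
    funext q
    simp [Finset.sum_apply, Pi.single_apply]

lemma dualMap_pi_comp_piDual {ι : Type*} [Fintype ι] {H : Type*} [AddCommGroup H] [Module k H]
    {P X : ι → Type*} [∀ q, AddCommGroup (P q)] [∀ q, Module k (P q)]
    [∀ q, AddCommGroup (X q)] [∀ q, Module k (X q)] (L : ∀ q, H →ₗ[k] P q)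
    (E : ∀ q, X q →ₗ[k] Module.Dual k (P q)) :
    (LinearMap.pi L).dualMap ∘ₗ piDual E
      = ∑ q, (L q).dualMap ∘ₗ E q ∘ₗ LinearMap.proj q := by
  ext x h
  simp [piDual_apply, LinearMap.sum_apply]

/-- Product form, matching `GlobalCokerDimL` / `locTotal` literally. -/
theorem finrank_ker_sum_dualMap_le_one {ι : Type*} [Fintype ι] {H : Type*} [AddCommGroup H]
    [Module k H] {P X : ι → Type*} [∀ q, AddCommGroup (P q)] [∀ q, Module k (P q)]
    [∀ q, AddCommGroup (X q)] [∀ q, Module k (X q)] [∀ q, Module.Finite k (P q)]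
    (L : ∀ q, H →ₗ[k] P q) (E : ∀ q, X q →ₗ[k] Module.Dual k (P q))
    (hE : ∀ q, Function.Bijective (E q))
    (h : ∑ q, finrank k (P q) ≤ finrank k (LinearMap.range (LinearMap.pi L)) + 1) :
    finrank k (LinearMap.ker
      (∑ q, (L q).dualMap ∘ₗ E q ∘ₗ LinearMap.proj q : (∀ q, X q) →ₗ[k] Module.Dual k H)) ≤ 1 := by
  rw [← dualMap_pi_comp_piDual]
  apply finrank_ker_dualMap_comp_le_one _ _ (piDual_bijective E hE)
  rw [Module.finrank_pi_fintype]
  exact h

theorem finite_ker_sum_dualMap {ι : Type*} [Fintype ι] {H : Type*} [AddCommGroup H]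
    [Module k H] {P X : ι → Type*} [∀ q, AddCommGroup (P q)] [∀ q, Module k (P q)]
    [∀ q, AddCommGroup (X q)] [∀ q, Module k (X q)] [∀ q, Module.Finite k (P q)]
    (L : ∀ q, H →ₗ[k] P q) (E : ∀ q, X q →ₗ[k] Module.Dual k (P q))
    (hE : ∀ q, Function.Bijective (E q)) :
    Module.Finite k (LinearMap.ker
      (∑ q, (L q).dualMap ∘ₗ E q ∘ₗ LinearMap.proj q : (∀ q, X q) →ₗ[k] Module.Dual k H)) := by
  rw [← dualMap_pi_comp_piDual]
  exact finite_ker_dualMap_comp _ _ (piDual_bijective E hE)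

end LinAlg

/-! ### The generic half of hypothesis (E) -/

section ExactE

variable {k : Type} [Field k] {Γ : Type} [Group Γ] {ι : Type} [Fintype ι]
variable (D : ι → Subgroup Γ) (Z : Rep.{0} k Γ) {I : Rep.{0} k Γ}

/-- The diagonal map `Z → ∏_v coind_{D_v} Z`. -/
noncomputable def diagPi : Z →ₗ[k] (∀ v, CoindZ D Z v) :=
  LinearMap.pi fun v => (diag D Z v).hom.toLinearMap

lemma diagPi_apply (z : Z) (v : ι) : diagPi D Z z v = (diag D Z v).hom z := rfl

lemma diagPi_injective [Nonempty ι] : Function.Injective (diagPi D Z) := by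
  intro z z' h
  have h1 : ((diag D Z (Classical.arbitrary ι)).hom z).1 1
      = ((diag D Z (Classical.arbitrary ι)).hom z').1 1 := by
    rw [← diagPi_apply, ← diagPi_apply, h]
  rw [diag_apply, diag_apply, map_one] at h1
  exact h1

variable {D Z}

lemma mem_range_diagPi_iff (x : ∀ v, CoindZ D Z v) :
    x ∈ LinearMap.range (diagPi D Z) ↔ ∃ z : Z, ∀ v, x v = (diag D Z v).hom z := by
  constructor
  · rintro ⟨z, rfl⟩
    exact ⟨z, fun v => rfl⟩
  · rintro ⟨z, hz⟩
    exact ⟨z, funext fun v => (hz v).symm⟩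

lemma exactE_iff (α : ∀ v, CoindZ D Z v ⟶ I) :
    ExactE α ↔ LinearMap.ker (S α) = LinearMap.range (diagPi D Z) := by
  constructor
  · intro h
    ext x
    rw [LinearMap.mem_ker, h x, mem_range_diagPi_iff]
  · intro h x
    rw [← LinearMap.mem_ker, h, mem_range_diagPi_iff]

instance finite_coindZ [Finite Γ] [Module.Finite k Z] (v : ι) :
    Module.Finite k (CoindZ D Z v) :=
  Module.Finite.of_injective
    (Submodule.subtype (Representation.coindV (D v).subtype (Rep.res (D v).subtype Z).ρ))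
    Subtype.val_injective

/-- **Generic half of (E)**: if the diagonal copy of `Z` is killed by `S α`, `dim Z = 1` and
`dim ker (S α) ≤ 1`, then `0 → Z → ∏_v coind_{D_v} Z → I` is exact. -/
theorem exactE_of_finrank [Nonempty ι] [Finite Γ] (α : ∀ v, CoindZ D Z v ⟶ I)
    (h0 : ∀ z : Z, S α (fun v => (diag D Z v).hom z) = 0)
    (hZ : finrank k Z = 1)
    (hker : finrank k (LinearMap.ker (S α)) ≤ 1) : ExactE α := by
  have hfin : Module.Finite k Z := Module.finite_of_finrank_pos (by omega)
  rw [exactE_iff]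
  symm
  apply Submodule.eq_of_le_of_finrank_le
  · rintro _ ⟨z, rfl⟩
    exact h0 z
  · rw [LinearMap.finrank_range_of_inj (diagPi_injective D Z), hZ]
    exact hker

end ExactE

/-! ### `coind_{D_v} Z ≃ Hom_{D_v}(k[Γ], Z)` and its dimension -/

section Coind

variable {k : Type} [Field k] {Γ : Type} [Group Γ] {ι : Type} [Fintype ι]
variable (D : ι → Subgroup Γ) (Z : Rep.{0} k Γ)

/-- `coind_{D_v}^Γ Z ≃ Hom_{D_v}(k[Γ], Z)`: `f ↦ (single x c ↦ c • f x)`, with inverse
`n ↦ (x ↦ n (single x 1))` (Mathlib's `Rep.coindVEquiv`). -/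
noncomputable def coindEquiv (v : ι) :
    CoindZ D Z v ≃ₗ[k]
      (Rep.res (D v).subtype (Rep.leftRegular k Γ) ⟶ Rep.res (D v).subtype Z) :=
  Rep.coindVEquiv (D v).subtype (Rep.res (D v).subtype Z)

lemma coindEquiv_hom_single (v : ι) (f : CoindZ D Z v) (x : Γ) (c : k) :
    (coindEquiv D Z v f).hom (MonoidAlgebra.single x c) = c • f.1 x := by
  simp [coindEquiv, Rep.coindVEquiv]

lemma coindEquiv_symm_apply (v : ι)
    (n : Rep.res (D v).subtype (Rep.leftRegular k Γ) ⟶ Rep.res (D v).subtype Z) (x : Γ) :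
    ((coindEquiv D Z v).symm n).1 x = n.hom (MonoidAlgebra.single x 1) := rfl

/-- Restriction of a coinduced function to a right transversal. -/
noncomputable def restrictT (v : ι) (T : Set Γ) : CoindZ D Z v →ₗ[k] (T → Z) :=
  LinearMap.pi fun t => evalAt D Z v t.1

lemma restrictT_apply (v : ι) (T : Set Γ) (f : CoindZ D Z v) (t : T) :
    restrictT D Z v T f t = f.1 t.1 := rfl

lemma restrictT_bijective (v : ι) {T : Set Γ} (hT : Subgroup.IsComplement (D v : Set Γ) T) :
    Function.Bijective (restrictT D Z v T) := by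
  constructor
  · rw [injective_iff_map_eq_zero]
    intro f hf
    apply Subtype.ext
    funext x
    have hx : f.1 x = Z.ρ ((hT.equiv x).1 : Γ) (f.1 ((hT.equiv x).2 : Γ)) := by
      rw [← CoindZ_mem D Z v f _ (hT.equiv x).1.2, hT.equiv_fst_mul_equiv_snd]
    have h2 : f.1 ((hT.equiv x).2 : Γ) = 0 := congrFun hf (hT.equiv x).2
    rw [hx, h2, map_zero]
    rfl
  · intro g
    refine ⟨⟨fun x => Z.ρ ((hT.equiv x).1 : Γ) (g (hT.equiv x).2), fun d x => ?_⟩, ?_⟩
    · show Z.ρ ((hT.equiv ((d : Γ) * x)).1 : Γ) (g (hT.equiv ((d : Γ) * x)).2)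
        = Z.ρ (d : Γ) (Z.ρ ((hT.equiv x).1 : Γ) (g (hT.equiv x).2))
      rw [hT.equiv_mul_left d x]
      show Z.ρ ((d : Γ) * ((hT.equiv x).1 : Γ)) _ = _
      rw [map_mul]
      rfl
    · funext t
      show Z.ρ ((hT.equiv (t : Γ)).1 : Γ) (g (hT.equiv (t : Γ)).2) = g t
      have h1 : (hT.equiv (t : Γ)).2 = t := by
        apply Subtype.ext
        rw [hT.equiv_snd_eq_inv_mul]
        have : ((hT.equiv (t : Γ)).1 : Γ) = 1 := by
          have h := hT.equiv_fst_mul_equiv_snd (t : Γ)
          have hmem : ((hT.equiv (t : Γ)).1 : Γ) * ((hT.equiv (t : Γ)).2 : Γ) = 1 * (t : Γ) := by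
            rw [h, one_mul]
          -- uniqueness of the decomposition
          have huniq := hT.1 (a₁ := ((hT.equiv (t : Γ)).1, (hT.equiv (t : Γ)).2))
            (a₂ := (⟨1, (D v).one_mem⟩, t)) hmem
          exact congrArg (fun q => ((q.1 : (D v : Set Γ)) : Γ)) huniq
        rw [this, inv_one, one_mul]
      have h2 : ((hT.equiv (t : Γ)).1 : Γ) = 1 := by
        have h := hT.equiv_fst_mul_equiv_snd (t : Γ)
        rw [h1] at h
        exact mul_eq_right.mp h
      rw [h1, h2, map_one]
      rfl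

theorem finrank_coindZ [Finite Γ] [Module.Finite k Z] (v : ι) :
    finrank k (CoindZ D Z v) = (D v).index * finrank k Z := by
  classical
  obtain ⟨T, hT, -⟩ := (D v).exists_isComplement_right 1
  have : Fintype T := Fintype.ofFinite T
  rw [(LinearEquiv.ofBijective _ (restrictT_bijective D Z v hT)).finrank_eq,
    Module.finrank_pi_fintype, Finset.sum_const, Finset.card_univ, smul_eq_mul,
    ← Nat.card_eq_fintype_card, hT.card_right]

theorem finrank_resHom [Finite Γ] [Module.Finite k Z] (v : ι) :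
    finrank k (Rep.res (D v).subtype (Rep.leftRegular k Γ) ⟶ Rep.res (D v).subtype Z)
      = (D v).index * finrank k Z := by
  rw [← (coindEquiv D Z v).finrank_eq, finrank_coindZ]

end Coind

end Fermat.Agent.S55.FormalTop65
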