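/-
S55 / TOP-W55 piece (W3), part 2 (helper65): injective variants of the dual linear algebra of
`FormalTop65/ExactE.lean` (only INJECTIVITY of the local duality maps `E q` is needed, so the
local dimension plug (P5) is not used for hypothesis (E)), and the all-in-one form
`exactE_of_dual_sum` of hypothesis (E) of `EW55.FormalPT`.
-/
import Fermat.Agent.S55.FormalTop65.ExactE

set_option autoImplicit false
set_option linter.unusedSimpArgs false
set_option linter.unnecessarySimpa false
set_option linter.unusedSectionVars false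

open CategoryTheory Module

namespace Fermat.Agent.S55.FormalTop65

open Fermat.Agent.S55.EW55 Fermat.Agent.S55.EW55.FormalPT

section LinAlg

variable {k : Type*} [Field k]

/-- The kernel of `f ∘ E` embeds into the kernel of `f` when `E` is injective. -/
def kerCompIncl {X Y W : Type*} [AddCommGroup X] [Module k X] [AddCommGroup Y]
    [Module k Y] [AddCommGroup W] [Module k W] (f : Y →ₗ[k] W) (E : X →ₗ[k] Y) :
    LinearMap.ker (f ∘ₗ E) →ₗ[k] LinearMap.ker f :=
  E.restrict (p := LinearMap.ker (f ∘ₗ E)) (q := LinearMap.ker f) (fun _ hx => hx)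

lemma kerCompIncl_injective {X Y W : Type*} [AddCommGroup X] [Module k X] [AddCommGroup Y]
    [Module k Y] [AddCommGroup W] [Module k W] (f : Y →ₗ[k] W) (E : X →ₗ[k] Y)
    (hE : Function.Injective E) : Function.Injective (kerCompIncl f E) :=
  fun _ _ h => Subtype.ext (hE (congrArg Subtype.val h))

theorem finite_ker_dualMap_comp_of_injective {H P X : Type*} [AddCommGroup H] [Module k H]
    [AddCommGroup P] [Module k P] [AddCommGroup X] [Module k X] [Module.Finite k P]
    (L : H →ₗ[k] P) (E : X →ₗ[k] Module.Dual k P) (hE : Function.Injective E) :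
    Module.Finite k (LinearMap.ker (L.dualMap ∘ₗ E)) :=
  Module.Finite.of_injective _ (kerCompIncl_injective L.dualMap E hE)

theorem finrank_ker_dualMap_comp_le_one_of_injective {H P X : Type*} [AddCommGroup H]
    [Module k H] [AddCommGroup P] [Module k P] [AddCommGroup X] [Module k X]
    [Module.Finite k P] (L : H →ₗ[k] P) (E : X →ₗ[k] Module.Dual k P)
    (hE : Function.Injective E) (h : finrank k P ≤ finrank k (LinearMap.range L) + 1) :
    finrank k (LinearMap.ker (L.dualMap ∘ₗ E)) ≤ 1 := by
  refine (LinearMap.finrank_le_finrank_of_injective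
    (kerCompIncl_injective L.dualMap E hE)).trans ?_
  rw [LinearMap.ker_dualMap_eq_dualAnnihilator_range]
  have := Subspace.finrank_add_finrank_dualAnnihilator_eq (LinearMap.range L)
  omega

lemma piDual_injective {ι : Type*} [Fintype ι] {P X : ι → Type*}
    [∀ q, AddCommGroup (P q)] [∀ q, Module k (P q)] [∀ q, AddCommGroup (X q)]
    [∀ q, Module k (X q)] (E : ∀ q, X q →ₗ[k] Module.Dual k (P q))
    (hE : ∀ q, Function.Injective (E q)) : Function.Injective (piDual E) := by
  classical
  rw [injective_iff_map_eq_zero]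
  intro x hx
  funext q
  apply hE q
  rw [Pi.zero_apply, map_zero]
  refine LinearMap.ext fun y => ?_
  have := LinearMap.congr_fun hx (Pi.single q y)
  rw [piDual_apply, Finset.sum_eq_single q] at this
  · simpa using this
  · intro b _ hb
    rw [Pi.single_eq_of_ne hb, map_zero]
  · intro hq; exact absurd (Finset.mem_univ q) hq

theorem finrank_ker_sum_dualMap_le_one_of_injective {ι : Type*} [Fintype ι] {H : Type*}
    [AddCommGroup H] [Module k H] {P X : ι → Type*} [∀ q, AddCommGroup (P q)]
    [∀ q, Module k (P q)] [∀ q, AddCommGroup (X q)] [∀ q, Module k (X q)]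
    [∀ q, Module.Finite k (P q)]
    (L : ∀ q, H →ₗ[k] P q) (E : ∀ q, X q →ₗ[k] Module.Dual k (P q))
    (hE : ∀ q, Function.Injective (E q))
    (h : ∑ q, finrank k (P q) ≤ finrank k (LinearMap.range (LinearMap.pi L)) + 1) :
    finrank k (LinearMap.ker
      (∑ q, (L q).dualMap ∘ₗ E q ∘ₗ LinearMap.proj q : (∀ q, X q) →ₗ[k] Module.Dual k H)) ≤ 1 := by
  rw [← dualMap_pi_comp_piDual]
  apply finrank_ker_dualMap_comp_le_one_of_injective _ _ (piDual_injective E hE)
  rw [Module.finrank_pi_fintype]
  exact h

end LinAlg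

section ExactE

variable {k : Type} [Field k] {Γ : Type} [Group Γ] {ι : Type} [Fintype ι]
variable {D : ι → Subgroup Γ} {Z I : Rep.{0} k Γ}

/-- **All-in-one generic form of hypothesis (E)**.  Suppose `S α` factors as
`x ↦ J (∑_q (L q)^* (E q (x q)))` with `J` injective (`J = id` when `I = T(k[Γ])` is a dual
space), `E q` injective (local duality, injectivity only), the diagonal copy of `Z` is killed
(reciprocity), `dim Z = 1`, and `∑_q dim P_q ≤ dim range (L_q)_q + 1` (the cokernel plug (P6)).
Then `0 → Z → ∏_v coind_{D_v} Z → I` is exact. -/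
theorem exactE_of_dual_sum [Nonempty ι] [Finite Γ] {H : Type*} [AddCommGroup H] [Module k H]
    {P : ι → Type*} [∀ q, AddCommGroup (P q)] [∀ q, Module k (P q)]
    [∀ q, Module.Finite k (P q)]
    (α : ∀ v, CoindZ D Z v ⟶ I) (J : Module.Dual k H →ₗ[k] I) (hJ : Function.Injective J)
    (L : ∀ q, H →ₗ[k] P q) (E : ∀ q, CoindZ D Z q →ₗ[k] Module.Dual k (P q))
    (hE : ∀ q, Function.Injective (E q))
    (hS : ∀ x : ∀ v, CoindZ D Z v, S α x = J (∑ q, (L q).dualMap (E q (x q))))
    (h0 : ∀ z : Z, S α (fun v => (diag D Z v).hom z) = 0)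
    (hZ : finrank k Z = 1)
    (h : ∑ q, finrank k (P q) ≤ finrank k (LinearMap.range (LinearMap.pi L)) + 1) :
    ExactE α := by
  apply exactE_of_finrank α h0 hZ
  have hker : LinearMap.ker (S α) = LinearMap.ker
      (∑ q, (L q).dualMap ∘ₗ E q ∘ₗ LinearMap.proj q :
        (∀ q, CoindZ D Z q) →ₗ[k] Module.Dual k H) := by
    ext x
    rw [LinearMap.mem_ker, LinearMap.mem_ker, hS x, ← map_zero J, hJ.eq_iff]
    simp [LinearMap.sum_apply]
  rw [hker]
  exact finrank_ker_sum_dualMap_le_one_of_injective L E hE h

end ExactE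

end Fermat.Agent.S55.FormalTop65
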