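/-
S55 / TOP-W55 pieces (W4b) + (W5b) (helper65).

(W4b) self-duality of the permutation modules: for a level `U` acting trivially on `μ_p`,
`(𝔽_p[G/U])^*(1) ≅ 𝔽_p[G/U]` (`δ_x ↦ χ(x) · δ_x^*`).

(W5b) `Rep.res (mk' V) (𝔽_p[Γ]) ≅ perm p V` for `Γ = G_ℚ ⧸ V` (identity on the monoid algebra), and
the transport of the plugs (P6) `GlobalCokerDimL`, (P5) `LocalDimL` at `U := V` to the shapes of
`EW55.Inst` (`locM S V q 𝔽_p[Γ]`): this is hypothesis `h` of `FormalTop65.exactE_of_dual_sum`.
-/
import Fermat.Agent.S55.EW55.Inst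

set_option autoImplicit false
set_option linter.unusedSimpArgs false
set_option linter.unnecessarySimpa false
set_option linter.unusedSectionVars false
set_option linter.style.haveILetI false

open CategoryTheory Module groupCohomology ExtCitation
open Fermat.Agent.S55.Profin15
open Fermat.Agent.Lib.FrobeniusExists (Qb GQ)
open Fermat.Agent.S55.Contract34
open Fermat.Agent.S55.Profin15.Plug

noncomputable section

namespace Fermat.Agent.S55.FormalTop65

/-! ### (W4b): generic self-duality of a twisted permutation module -/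

section SelfDual

variable {k : Type} [Field k] {X : Type}

/-- The diagonal form `⟨δ_x, δ_y⟩ = c(x) [x = y]` on `k[X]`, as a map `k[X] → k[X]^*`. -/
def diagForm (c : X → k) : MonoidAlgebra k X →ₗ[k] Module.Dual k (MonoidAlgebra k X) :=
  ((MonoidAlgebra.coeffLinearEquiv k).toLinearMap.dualMap ∘ₗ
    (Finsupp.lift (Module.Dual k (X →₀ k)) k X fun x => c x • Finsupp.lapply x)) ∘ₗ
      (MonoidAlgebra.coeffLinearEquiv k).toLinearMap

lemma diagForm_single_apply (c : X → k) (x : X) (r : k) (b : MonoidAlgebra k X) :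
    diagForm c (MonoidAlgebra.single x r) b = c x * r * b.coeff x := by
  simp only [diagForm, LinearMap.comp_apply, LinearEquiv.coe_coe, LinearMap.dualMap_apply]
  simp
  ring

lemma diagForm_apply_single (c : X → k) (a : MonoidAlgebra k X) (y : X) (s : k) :
    diagForm c a (MonoidAlgebra.single y s) = c y * a.coeff y * s := by
  classical
  induction a using MonoidAlgebra.induction_linear with
  | zero => simp
  | add a b ha hb =>
    rw [map_add, LinearMap.add_apply, ha, hb, MonoidAlgebra.coeff_add, Finsupp.add_apply]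
    ring
  | single x r =>
    rw [diagForm_single_apply, MonoidAlgebra.coeff_single, MonoidAlgebra.coeff_single,
      Finsupp.single_apply, Finsupp.single_apply]
    by_cases h : x = y
    · subst h; simp
    · rw [if_neg (Ne.symm h), if_neg h]; ring

lemma diagForm_injective (c : X → k) (hc : ∀ x, c x ≠ 0) :
    Function.Injective (diagForm c) := by
  rw [injective_iff_map_eq_zero]
  intro a ha
  apply MonoidAlgebra.coeff_injective
  ext x
  have h1 := LinearMap.congr_fun ha (MonoidAlgebra.single x 1)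
  rw [diagForm_apply_single, LinearMap.zero_apply, mul_one] at h1
  rcases mul_eq_zero.1 h1 with h | h
  · exact absurd h (hc x)
  · simpa using h

theorem finite_monoidAlgebra [Finite X] : Module.Finite k (MonoidAlgebra k X) :=
  Module.Finite.equiv (MonoidAlgebra.coeffLinearEquiv k).symm

/-- The diagonal form is a perfect pairing when all `c x ≠ 0` and `X` is finite. -/
def diagEquiv [Finite X] (c : X → k) (hc : ∀ x, c x ≠ 0) :
    MonoidAlgebra k X ≃ₗ[k] Module.Dual k (MonoidAlgebra k X) :=
  haveI : Module.Finite k (MonoidAlgebra k X) := finite_monoidAlgebra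
  LinearEquiv.ofBijective (diagForm c) ⟨diagForm_injective c hc,
    (LinearMap.injective_iff_surjective_of_finrank_eq_finrank
      (Subspace.dual_finrank_eq (K := k) (V := MonoidAlgebra k X)).symm).1
      (diagForm_injective c hc)⟩

variable {G : Type} [Group G] [MulAction G X]

lemma diagForm_equivariant (χ : G →* kˣ) (c : X → k)
    (hc : ∀ g x, c (g • x) = (χ g : k) * c x) (g : G) :
    diagForm c ∘ₗ Representation.ofMulAction k G X g
      = ((Representation.ofMulAction k G X).dual.twist χ g) ∘ₗ diagForm c := by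
  refine LinearMap.ext fun a => LinearMap.ext fun b => ?_
  induction a using MonoidAlgebra.induction_linear with
  | zero => simp
  | add a a' ha ha' =>
    simp only [LinearMap.comp_apply, map_add, LinearMap.add_apply] at ha ha' ⊢
    rw [ha, ha']
  | single x r =>
    simp only [LinearMap.comp_apply]
    rw [Representation.ofMulAction_single, diagForm_single_apply, Representation.twist_apply_apply,
      LinearMap.smul_apply, Representation.dual_apply, Module.Dual.transpose_apply,
      LinearMap.comp_apply, diagForm_single_apply, Representation.coeff_ofMulAction, inv_inv, hc,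
      smul_eq_mul]
    ring

end SelfDual

/-! ### (W4b): the instance `(perm p U).dualTwist χ ≅ perm p U` -/

section W4b

variable (p : ℕ) [Fact p.Prime] (S : Finset Nat.Primes)

/-- (W4b) self-duality of the permutation modules at levels fixing `μ_p`. -/
def W4b : Prop :=
  ∀ U ∈ (globalLevels S).levels, (∀ s ∈ U, (mu p).ρ s = 1) →
    Nonempty ((perm p U).dualTwist (cycloChar p) ≅ perm p U)

variable {p}

lemma cycloChar_eq_one_of_mu {s : GQ} (h : (mu p).ρ s = 1) : cycloChar p s = 1 := by
  have h1 : (mu p).ρ s (1 : ZMod p) = (1 : ZMod p) := by rw [h]; rfl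
  have h2 : (mu p).ρ s (1 : ZMod p) = ((cycloChar p s : (ZMod p)ˣ) : ZMod p) • (1 : ZMod p) := rfl
  rw [h2, smul_eq_mul, mul_one] at h1
  exact Units.ext h1

/-- `x U ↦ χ(x)` on `G/U`, for `U` normal with `χ|_U = 1`. -/
def chiQ (U : Subgroup GQ) [U.Normal] (hU : U ≤ (cycloChar p).ker) :
    GQ ⧸ U →* (ZMod p)ˣ :=
  QuotientGroup.lift U (cycloChar p) hU

lemma chiQ_smul (U : Subgroup GQ) [U.Normal] (hU : U ≤ (cycloChar p).ker) (g : GQ)
    (x : GQ ⧸ U) :
    ((chiQ U hU (g • x) : (ZMod p)ˣ) : ZMod p)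
      = ((cycloChar p g : (ZMod p)ˣ) : ZMod p) * ((chiQ U hU x : (ZMod p)ˣ) : ZMod p) := by
  induction x using QuotientGroup.induction_on with
  | H y =>
    have : g • (y : GQ ⧸ U) = ((g * y : GQ) : GQ ⧸ U) := rfl
    rw [this]
    show ((QuotientGroup.lift U (cycloChar p) hU ((g * y : GQ) : GQ ⧸ U) : (ZMod p)ˣ) : ZMod p) = _
    rw [QuotientGroup.lift_mk, map_mul, Units.val_mul]
    rfl

/-- The equivalence of representations `𝔽_p[G/U] ≃ (𝔽_p[G/U])^*(1)`, `δ_x ↦ χ(x) δ_x^*`. -/
def permDualEquiv (U : Subgroup GQ) [U.Normal] [Finite (GQ ⧸ U)]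
    (hU : U ≤ (cycloChar p).ker) :
    (Representation.ofMulAction (ZMod p) GQ (GQ ⧸ U)).Equiv
      ((Representation.ofMulAction (ZMod p) GQ (GQ ⧸ U)).dual.twist (cycloChar p)) :=
  Representation.Equiv.mk
    (diagEquiv (fun x : GQ ⧸ U => ((chiQ U hU x : (ZMod p)ˣ) : ZMod p)) fun _ => Units.ne_zero _)
    (diagForm_equivariant (cycloChar p) _ (chiQ_smul U hU))

variable (p)

theorem w4b : W4b p S := by
  intro U hU hmu
  haveI := (globalLevels S).normal U hU
  haveI := (globalLevels S).finiteIndex U hU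
  haveI : Finite (GQ ⧸ U) := Subgroup.finite_quotient_of_finiteIndex
  exact ⟨(Rep.mkIso (permDualEquiv U fun s hs =>
    MonoidHom.mem_ker.2 (cycloChar_eq_one_of_mu (hmu s hs)))).symm⟩

end W4b

/-- two linear maps intertwined by linear equivalences have ranges of the same dimension -/
lemma finrank_range_eq_of_comm {k : Type*} [Field k] {A A' B B' : Type*} [AddCommGroup A]
    [Module k A] [AddCommGroup A'] [Module k A'] [AddCommGroup B] [Module k B] [AddCommGroup B']
    [Module k B'] (f : A →ₗ[k] B) (g : A' →ₗ[k] B') (eA : A ≃ₗ[k] A') (eB : B ≃ₗ[k] B')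
    (h : ∀ x, eB (f x) = g (eA x)) :
    finrank k (LinearMap.range f) = finrank k (LinearMap.range g) := by
  have hmap : (LinearMap.range f).map eB.toLinearMap = LinearMap.range g := by
    ext y
    simp only [Submodule.mem_map, LinearMap.mem_range]
    constructor
    · rintro ⟨_, ⟨x, rfl⟩, rfl⟩
      exact ⟨eA x, (h x).symm⟩
    · rintro ⟨x, rfl⟩
      refine ⟨_, ⟨eA.symm x, rfl⟩, ?_⟩
      rw [LinearEquiv.coe_coe, h, LinearEquiv.apply_symm_apply]
  rw [← hmap]
  exact (LinearEquiv.finrank_map_eq eB _).symm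

/-- family version of `finrank_range_eq_of_comm` -/
lemma finrank_range_pi_eq_of_comm {k : Type*} [Field k] {ι : Type*} {A A' : Type*}
    {B B' : ι → Type*} [AddCommGroup A] [Module k A] [AddCommGroup A'] [Module k A']
    [∀ q, AddCommGroup (B q)] [∀ q, Module k (B q)] [∀ q, AddCommGroup (B' q)]
    [∀ q, Module k (B' q)] (f : ∀ q, A →ₗ[k] B q) (g : ∀ q, A' →ₗ[k] B' q) (eA : A ≃ₗ[k] A')
    (eB : ∀ q, B q ≃ₗ[k] B' q) (h : ∀ q x, eB q (f q x) = g q (eA x)) :
    finrank k (LinearMap.range (LinearMap.pi f)) = finrank k (LinearMap.range (LinearMap.pi g)) :=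
  finrank_range_eq_of_comm (LinearMap.pi f) (LinearMap.pi g) eA (LinearEquiv.piCongrRight eB)
    fun x => funext fun q => h q x

/-! ### (W5b): `res (mk' V) 𝔽_p[Γ] ≅ perm p V` and the transport of (P6), (P5) -/

section W5b

open Fermat.Agent.S55.EW55.Inst

variable {p : ℕ} [Fact p.Prime] (S : Finset Nat.Primes) (V : Subgroup GQ) [V.Normal]

/-- the regular representation of `Γ = G_ℚ ⧸ V` -/
abbrev regV : Rep.{0} (ZMod p) (GQ ⧸ V) := Rep.leftRegular (ZMod p) (GQ ⧸ V)

lemma res_regV_ρ_apply (g : GQ) (a : MonoidAlgebra (ZMod p) (GQ ⧸ V)) :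
    (Rep.res (QuotientGroup.mk' V) (regV (p := p) V)).ρ g a = (perm p V).ρ g a := by
  induction a using MonoidAlgebra.induction_linear with
  | zero => simp
  | add a b ha hb => rw [map_add, map_add, ha, hb]
  | single x r =>
    show Representation.ofMulAction (ZMod p) (GQ ⧸ V) (GQ ⧸ V) (QuotientGroup.mk' V g)
        (MonoidAlgebra.single x r)
      = Representation.ofMulAction (ZMod p) GQ (GQ ⧸ V) g (MonoidAlgebra.single x r)
    rw [Representation.ofMulAction_single, Representation.ofMulAction_single]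
    congr 1

/-- the identity `res (mk' V) 𝔽_p[Γ] → perm p V` -/
def permLin : Rep.res (QuotientGroup.mk' V) (regV (p := p) V) →ₗ[ZMod p] perm p V :=
  LinearMap.id

/-- the identity `perm p V → res (mk' V) 𝔽_p[Γ]` -/
def permLinInv : perm p V →ₗ[ZMod p] Rep.res (QuotientGroup.mk' V) (regV (p := p) V) :=
  LinearMap.id

lemma permLin_equivariant : LevelStr.IsEquivariant (permLin (p := p) V) :=
  fun g a => res_regV_ρ_apply V g a

lemma permLinInv_equivariant : LevelStr.IsEquivariant (permLinInv (p := p) V) :=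
  fun g a => (res_regV_ρ_apply V g a).symm

/-- (W5b) `Rep.res (mk' V) (𝔽_p[Γ]) ≅ perm p V` (identity on the monoid algebra). -/
def permIso : Rep.res (QuotientGroup.mk' V) (regV (p := p) V) ≅ perm p V :=
  Rep.mkIso (Representation.Equiv.mk (LinearEquiv.refl (ZMod p) (MonoidAlgebra (ZMod p) (GQ ⧸ V)))
    fun g => LinearMap.ext fun a => res_regV_ρ_apply V g a)

/-- `H²(G_S, res 𝔽_p[Γ]) ≃ H²(G_S, perm p V)` -/
def permH2 : (globalLevels S).H2 (Rep.res (QuotientGroup.mk' V) (regV (p := p) V)) ≃ₗ[ZMod p]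
    (globalLevels S).H2 (perm p V) :=
  LinearEquiv.ofLinearMap
    ((globalLevels S).H2map (permLin V) (permLin_equivariant V))
    ((globalLevels S).H2map (permLinInv V) (permLinInv_equivariant V))
    (LinearMap.ext fun x => by
      obtain ⟨c, rfl⟩ := Submodule.Quotient.mk_surjective _ x
      rfl)
    (LinearMap.ext fun x => by
      obtain ⟨c, rfl⟩ := Submodule.Quotient.mk_surjective _ x
      rfl)

/-- the identity `infl_q (res_{D_q} 𝔽_p[Γ]) → res_{G_q} (perm p V)` -/
def permLinQ (q : Nat.Primes) :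
    Rep.res (piQ V q) (Rep.res (D V q).subtype (regV (p := p) V)) →ₗ[ZMod p]
      Rep.res (primeLocalToGlobal q) (perm p V) :=
  LinearMap.id

/-- the identity `res_{G_q} (perm p V) → infl_q (res_{D_q} 𝔽_p[Γ])` -/
def permLinQInv (q : Nat.Primes) :
    Rep.res (primeLocalToGlobal q) (perm p V) →ₗ[ZMod p]
      Rep.res (piQ V q) (Rep.res (D V q).subtype (regV (p := p) V)) :=
  LinearMap.id

lemma permLinQ_equivariant (q : Nat.Primes) : LevelStr.IsEquivariant (permLinQ (p := p) V q) :=
  fun h a => res_regV_ρ_apply V (primeLocalToGlobal q h) a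

lemma permLinQInv_equivariant (q : Nat.Primes) :
    LevelStr.IsEquivariant (permLinQInv (p := p) V q) :=
  fun h a => (res_regV_ρ_apply V (primeLocalToGlobal q h) a).symm

/-- `H²(G_q, infl_q res_{D_q} 𝔽_p[Γ]) ≃ H²(G_q, res_{G_q} perm p V)` -/
def permH2Q (q : Nat.Primes) :
    (pullLevels (primeLocalToGlobal q)).H2
        (Rep.res (piQ V q) (Rep.res (D V q).subtype (regV (p := p) V))) ≃ₗ[ZMod p]
      (pullLevels (primeLocalToGlobal q)).H2 (Rep.res (primeLocalToGlobal q) (perm p V)) :=
  LinearEquiv.ofLinearMap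
    ((pullLevels (primeLocalToGlobal q)).H2map (permLinQ V q) (permLinQ_equivariant V q))
    ((pullLevels (primeLocalToGlobal q)).H2map (permLinQInv V q) (permLinQInv_equivariant V q))
    (LinearMap.ext fun x => by
      obtain ⟨c, rfl⟩ := Submodule.Quotient.mk_surjective _ x
      rfl)
    (LinearMap.ext fun x => by
      obtain ⟨c, rfl⟩ := Submodule.Quotient.mk_surjective _ x
      rfl)

/-- the comparison equivalences commute with localisation -/
lemma permH2Q_locM (q : ↥S)
    (x : (globalLevels S).H2 (Rep.res (QuotientGroup.mk' V) (regV (p := p) V))) :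
    permH2Q V q.1 (locM S V q (regV V) x) = locq p S q.1 (perm p V) (permH2 S V x) := by
  obtain ⟨c, rfl⟩ := Submodule.Quotient.mk_surjective _ x
  rfl

/-- (W5b) finiteness of `H²(G_S, res 𝔽_p[Γ])` from (P6) at `U := V`. -/
theorem finite_H2_res_regV (h6 : GlobalCokerDimL p S) (hV : V ∈ (globalLevels S).levels)
    (hmu : ∀ s ∈ V, (mu p).ρ s = 1) :
    Module.Finite (ZMod p)
      ((globalLevels S).H2 (Rep.res (QuotientGroup.mk' V) (regV (p := p) V))) :=
  haveI := (h6 V hV hmu).1
  Module.Finite.equiv (permH2 S V).symm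

/-- finiteness of the local `H²(G_q, infl_q res_{D_q} 𝔽_p[Γ])` from (P5) at `U := V`. -/
theorem finite_H2Q_res_regV (h5 : LocalDimL p S) (hV : V ∈ (globalLevels S).levels)
    (hmu : ∀ s ∈ V, (mu p).ρ s = 1) (q : ↥S) :
    Module.Finite (ZMod p) ((pullLevels (primeLocalToGlobal q.1)).H2
      (Rep.res (piQ V q.1) (Rep.res (D V q.1).subtype (regV (p := p) V)))) :=
  haveI := (h5 q V hV hmu).1
  Module.Finite.equiv (permH2Q V q.1).symm

lemma finrank_range_pi_locM :
    finrank (ZMod p) (LinearMap.range (LinearMap.pi fun q : ↥S => locM S V q (regV (p := p) V)))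
      = finrank (ZMod p) (LinearMap.range (locTotal p S (perm p V))) :=
  by
  have h := finrank_range_pi_eq_of_comm (k := ZMod p) (ι := ↥S)
    (A := (globalLevels S).H2 (Rep.res (QuotientGroup.mk' V) (regV (p := p) V)))
    (A' := (globalLevels S).H2 (perm p V))
    (B := fun q : ↥S => (pullLevels (primeLocalToGlobal q.1)).H2
      (Rep.res (piQ V q.1) (Rep.res (D V q.1).subtype (regV (p := p) V))))
    (B' := fun q : ↥S => (pullLevels (primeLocalToGlobal q.1)).H2
      (Rep.res (primeLocalToGlobal q.1) (perm p V)))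
    (fun q : ↥S => locM S V q (regV (p := p) V))
    (fun q : ↥S => locq p S q.1 (perm p V)) (permH2 S V) (fun q : ↥S => permH2Q V q.1)
    (fun q x => permH2Q_locM S V q x)
  exact h

/-- **(W5b)** the plug (P6) at `U := V` in the shape of `EW55.Inst`: this is hypothesis `h` of
`FormalTop65.exactE_of_dual_sum` with `L q := Inst.locM S V q 𝔽_p[Γ]`. -/
theorem sum_finrank_le_of_globalCokerDimL (h6 : GlobalCokerDimL p S)
    (hV : V ∈ (globalLevels S).levels) (hmu : ∀ s ∈ V, (mu p).ρ s = 1) :
    ∑ q : ↥S, finrank (ZMod p) ((pullLevels (primeLocalToGlobal q.1)).H2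
        (Rep.res (piQ V q.1) (Rep.res (D V q.1).subtype (regV (p := p) V))))
      ≤ finrank (ZMod p)
          (LinearMap.range (LinearMap.pi fun q : ↥S => locM S V q (regV (p := p) V))) + 1 := by
  rw [finrank_range_pi_locM]
  have h := (h6 V hV hmu).2
  have key : (∑ q : ↥S, finrank (ZMod p) ((pullLevels (primeLocalToGlobal q.1)).H2
        (Rep.res (piQ V q.1) (Rep.res (D V q.1).subtype (regV (p := p) V)))))
      = ∑ q : ↥S, finrank (ZMod p) ((pullLevels (primeLocalToGlobal q.1)).H2
          (Rep.res (primeLocalToGlobal q.1) (perm p V))) :=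
    Finset.sum_congr rfl fun q _ => (permH2Q V q.1).finrank_eq
  rw [key]
  exact h

/-- the hypothesis `hμ` of `EW55.Inst` in the form used by the plugs -/
lemma mu_ρ_eq_one_of_le_ker (hμ : V ≤ (mu p).ρ.ker) : ∀ s ∈ V, (mu p).ρ s = 1 :=
  fun _ hs => MonoidHom.mem_ker.1 (hμ hs)

end W5b

end Fermat.Agent.S55.FormalTop65
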