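/-
S55 / TOP-W55 (W4b), literal form (helper65): helper25's named Prop
`FormalTop25.OfLevelData.W4b p S` is a theorem (`FormalTop65.w4b`), and so is the conjunction
`W4a p S ∧ W4b p S` consumed by `FormalTop25.OfLevelData.topStatementCount_of_levelData'`.
-/
import Fermat.Agent.S55.FormalTop65.Perm
import Fermat.Agent.S55.FormalTop25.OfLevelData
import Fermat.Agent.S55.Wire41.W4a

set_option autoImplicit false

namespace Fermat.Agent.S55.FormalTop65.W4bLit

/-- **(W4b)** literally. -/
theorem w4b (p : ℕ) [Fact p.Prime] (S : Finset Nat.Primes) :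
    Fermat.Agent.S55.FormalTop25.OfLevelData.W4b p S :=
  fun U hU hmu => Fermat.Agent.S55.FormalTop65.w4b p S U hU hmu

/-- (W4a) and (W4b) together. -/
theorem w4a_and_w4b (p : ℕ) [Fact p.Prime] (S : Finset Nat.Primes) :
    Fermat.Agent.S55.FormalTop25.OfLevelData.W4a p S ∧
      Fermat.Agent.S55.FormalTop25.OfLevelData.W4b p S :=
  ⟨Fermat.Agent.S55.Wire41.W4a.w4a p S, w4b p S⟩

end Fermat.Agent.S55.FormalTop65.W4bLit
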